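import Fermat.Agent.TOR.T1A.Defs
import Fermat.Agent.TOR.KL2.Basic
import Fermat.Agent.GAL.KLC.GaussON
import Fermat.Agent.GAL.KLC.SpansDim

/-!
# TOR / T1A : `Setup`, `Arch`, `ON2`, `Spans` for `v`, `v ∘ w`
-/

set_option autoImplicit false

open Polynomial IntermediateField

noncomputable section

namespace Fermat.Agent.TOR.T1A

open Fermat.Agent.GAL.KL Fermat.Agent.GAL.KLC Fermat.Agent.TOR.KL2

variable {K F k Γ₀ : Type*} [Field K] [Field F] [Algebra K F] [Field k]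
  [LinearOrderedCommGroupWithZero Γ₀] {v : Valuation F Γ₀} {ρ : v.integer →+* LaurentSeries k}
  {w : F ≃ₐ[K] F} {t θ : F}

theorem w_aeval (w : F ≃ₐ[K] F) (u : F) (p : K[X]) : w (aeval u p) = aeval (w u) p :=
  (aeval_algHom_apply (w : F →ₐ[K] F) u p).symm

/-- `Gauss` for `v ∘ w` if `w u = u`. -/
theorem gauss_v2 {u : F} (hG : Gauss K v u) (hwu : w u = u) : Gauss K (v2 v w) u := by
  intro p γ
  rw [v2_apply, w_aeval, hwu, hG p γ]
  refine forall_congr' fun i => ?_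
  rw [v2_apply, w.commutes]

theorem setup_of_gauss {u : F} (hG : Gauss K v u) (hwu : w u = u) : Setup K v (v2 v w) u :=
  ⟨hG, gauss_v2 hG hwu, fun a => by rw [v2_apply, w.commutes]⟩

theorem Base.gauss (B : Base K v ρ w t θ) : Gauss K v t := gauss_of_isRed B.red B.t1 B.tord

theorem Base.setup (B : Base K v ρ w t θ) : Setup K v (v2 v w) t := setup_of_gauss B.gauss B.wt

theorem arch2 (hA : Arch v) : Arch (v2 v w) := fun x hx γ hγ => hA (w x) hx γ hγ

theorem comb_bet {d : ℕ} (p : Fin (d + d) → K[X]) (y : Fin d → F) :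
    comb K t p (bet w θ y) = comb K t (fun i => p (Fin.castAdd d i)) (fun i => θ * y i) +
      comb K t (fun i => p (Fin.natAdd d i)) (fun i => w (θ * y i)) := by
  simp only [comb, bet, Fin.sum_univ_add, Fin.append_left, Fin.append_right]

theorem w_comb (hwt : w t = t) {d : ℕ} (a : Fin d → K[X]) (e : Fin d → F) :
    w (comb K t a e) = comb K t a (fun i => w (e i)) := by
  simp only [comb, map_sum, map_mul, w_aeval, hwt]

theorem Base.v_θ_le (B : Base K v ρ w t θ) : v θ ≤ 1 := by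
  have h : θ = (θ - 1) + 1 := by ring
  rw [h]
  exact (v.map_add _ _).trans (max_le B.θ1.le (by rw [map_one]))

theorem v_comb_le {d : ℕ} (a : Fin d → K[X]) (e : Fin d → F) (γ : Γ₀)
    (ha : ∀ i, v (aeval t (a i)) ≤ γ) (he : ∀ i, v (e i) ≤ 1) : v (comb K t a e) ≤ γ := by
  refine Valuation.map_sum_le v fun i _ => ?_
  rw [map_mul]
  calc v (aeval t (a i)) * v (e i) ≤ γ * 1 := mul_le_mul' (ha i) (he i)
    _ = γ := mul_one γ

theorem v_comb_lt {d : ℕ} (a : Fin d → K[X]) (e : Fin d → F) (μ : Γ₀) (hμ : μ ≠ 0)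
    (ha : ∀ i, v (aeval t (a i)) ≤ μ) (he : ∀ i, v (e i) < 1) : v (comb K t a e) < μ := by
  refine Valuation.map_sum_lt v hμ fun i _ => ?_
  rw [map_mul]
  calc v (aeval t (a i)) * v (e i) ≤ μ * v (e i) := mul_le_mul' (ha i) le_rfl
    _ < μ * 1 := mul_lt_mul_of_pos_left (he i) (zero_lt_iff.mpr hμ)
    _ = μ := mul_one μ

/-- one half of the lower bound. -/
theorem Base.on2_aux (B : Base K v ρ w t θ) {d : ℕ} (y : Fin d → F) (hy : ON K v t y)
    (hy2 : ∀ i, v (w (y i)) ≤ 1) (a b : Fin d → K[X]) (μ : Γ₀) (hμ : μ ≠ 0)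
    (ha : ∀ i, v (aeval t (a i)) ≤ μ) (hb : ∀ i, v (aeval t (b i)) ≤ μ)
    (hZ : v (comb K t a (fun i => θ * y i) + comb K t b (fun i => w (θ * y i))) < μ) :
    ∀ i, v (aeval t (a i)) < μ := by
  rw [← hy.lt_iff a μ hμ]
  have h1 : comb K t a y = (comb K t a (fun i => θ * y i) + comb K t b (fun i => w (θ * y i)))
      - (comb K t a (fun i => (θ - 1) * y i) + comb K t b (fun i => w (θ * y i))) := by
    simp only [comb, ← Finset.sum_add_distrib, ← Finset.sum_sub_distrib]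
    refine Finset.sum_congr rfl fun i _ => ?_
    ring
  rw [h1]
  refine lt_of_le_of_lt (Valuation.map_sub v _ _) (max_lt hZ ?_)
  refine lt_of_le_of_lt (v.map_add _ _) (max_lt ?_ ?_)
  · refine v_comb_lt a _ μ hμ ha fun i => ?_
    rw [map_mul, hy.v_eq_one, mul_one]
    exact B.θ1
  · refine v_comb_lt b _ μ hμ hb fun i => ?_
    rw [map_mul, map_mul]
    calc v (w θ) * v (w (y i)) ≤ v (w θ) * 1 := mul_le_mul' le_rfl (hy2 i)
      _ = v (w θ) := mul_one _
      _ < 1 := B.θ2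

/-- **T1A-ON2.**  PROOF.  `Z = ∑ p_i θ y_i + ∑ p'_i w(θ y_i)`, `μ = max (|p_i|, |p'_i|)`.  `≤`: every term has `NN ≤ μ` (`NN (θ y_i) ≤ 1`).
`≥`: if `μ = max |p_i|` then `Z = ∑ p_i y_i + [∑ p_i (θ - 1) y_i + ∑ p'_i (w θ) (w y_i)]`, the bracket has `v < μ`, and `v (∑ p_i y_i) = μ` by `hy`; so `v Z = μ`.
If `μ = max |p'_i|` apply `w` (`w Z` has the same shape with `p, p'` exchanged, as `w t = t`, `w w = 1`): `v (w Z) = μ`. -/
theorem Base.on2 (B : Base K v ρ w t θ) {d : ℕ} (y : Fin d → F) (hy : ON K v t y)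
    (hy2 : ∀ i, v (w (y i)) ≤ 1) : ON2 K v (v2 v w) t (bet w θ y) := by
  intro p γ
  have hwZ : w (comb K t p (bet w θ y)) =
      comb K t (fun i => p (Fin.natAdd d i)) (fun i => θ * y i) +
      comb K t (fun i => p (Fin.castAdd d i)) (fun i => w (θ * y i)) := by
    rw [comb_bet, map_add, w_comb B.wt, w_comb B.wt, add_comm]
    simp only [B.ww]
  have he1 : ∀ i, v (θ * y i) ≤ 1 := fun i => by
    rw [map_mul, hy.v_eq_one, mul_one]; exact B.v_θ_le
  have he2 : ∀ i, v (w (θ * y i)) ≤ 1 := fun i => by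
    rw [map_mul, map_mul]
    calc v (w θ) * v (w (y i)) ≤ 1 * 1 := mul_le_mul' B.θ2.le (hy2 i)
      _ = 1 := mul_one _
  rw [NN_le_iff, v2_apply, hwZ, comb_bet]
  constructor
  · rintro ⟨h1, h2⟩
    by_contra hcon
    push Not at hcon
    obtain ⟨i₀, hi₀⟩ := hcon
    obtain ⟨j, -, hmax⟩ := Finset.exists_max_image Finset.univ (fun i => v (aeval t (p i)))
      ⟨i₀, Finset.mem_univ i₀⟩
    have hγμ : γ < v (aeval t (p j)) := lt_of_lt_of_le hi₀ (hmax i₀ (Finset.mem_univ _))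
    have hμ : v (aeval t (p j)) ≠ 0 := (lt_of_le_of_lt zero_le hγμ).ne'
    have hA := B.on2_aux y hy hy2 (fun i => p (Fin.castAdd d i)) (fun i => p (Fin.natAdd d i)) _ hμ
      (fun i => hmax _ (Finset.mem_univ _)) (fun i => hmax _ (Finset.mem_univ _))
      (lt_of_le_of_lt h1 hγμ)
    have hB := B.on2_aux y hy hy2 (fun i => p (Fin.natAdd d i)) (fun i => p (Fin.castAdd d i)) _ hμ
      (fun i => hmax _ (Finset.mem_univ _)) (fun i => hmax _ (Finset.mem_univ _))
      (lt_of_le_of_lt h2 hγμ)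
    induction j using Fin.addCases with
    | left i => exact lt_irrefl _ (hA i)
    | right i => exact lt_irrefl _ (hB i)
  · intro h
    exact ⟨(v.map_add _ _).trans (max_le (v_comb_le _ _ γ (fun i => h _) he1)
        (v_comb_le _ _ γ (fun i => h _) he2)),
      (v.map_add _ _).trans (max_le (v_comb_le _ _ γ (fun i => h _) he1)
        (v_comb_le _ _ γ (fun i => h _) he2))⟩

theorem Base.spans (B : Base K v ρ w t θ) {d : ℕ} (y : Fin d → F) (hy : ON K v t y)
    (hy2 : ∀ i, v (w (y i)) ≤ 1) (hfin : FiniteDimensional K⟮t⟯ F)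
    (hle : Module.finrank K⟮t⟯ F ≤ d + d) : Spans K t (bet w θ y) := by
  refine spans_of_finrank_le _ ?_ ((B.on2 y hy hy2).inj B.setup) hfin hle
  rw [transcendental_iff]
  exact fun p hp => B.gauss.inj p hp

end Fermat.Agent.TOR.T1A
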