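import Fermat.Agent.TOR.T1A.Defs
import Fermat.Agent.TOR.KL2.ONBasis
import Fermat.Agent.GAL.KLB.IntRed

/-!
# TOR / T1A : integrality over `K[u]` passes to the reduction (two valuations)

Port of `KLB.isInt_rho` (Fermat/Agent/GAL/KLB/IntRed.lean, 50 lines) to the sup norm.
PROOF.  `e` an ON2-basis of `BB K u` (`exists_basis_BB`, `KL2.exists_ON2_basis`); `z e_j = ∑ P_ji(u) e_i`, `P_ji` integral by ON2 (`NN (z e_j) ≤ 1`);
`E j := ⟨e j, _⟩ : v₁.integer` (`v₁ (e j) ≤ NN (e j) = 1`); apply `ρ` and `KLB.intRed_isIntegralElem`.  The only new point: the vector `(ρ (E j))_j` is nonzero, because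
`1 = ∑ p_j(u) e_j` with `p_j` integral (ON2, `NN 1 ≤ 1`), so `1 = ∑ ρ(p_j(u)) ρ(E j)`.
-/

set_option autoImplicit false

open Polynomial

noncomputable section

namespace Fermat.Agent.TOR.T1A

open Fermat.Agent.GAL.KL Fermat.Agent.GAL.KLC Fermat.Agent.GAL.KLB Fermat.Agent.TOR.KL2

variable {K F k Γ₀ : Type*} [Field K] [Field F] [Algebra K F] [Field k]
  [LinearOrderedCommGroupWithZero Γ₀] {v₁ v₂ : Valuation F Γ₀} {ρ : v₁.integer →+* LaurentSeries k}

/-- **T1A-INTRED2.** -/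
theorem isInt_rho2 [IsAlgClosed K] [CharZero K] (hρ : IsRed K v₁ ρ) (u : v₁.integer)
    (S : Setup K v₁ v₂ (u : F)) {d : ℕ} (β : Fin d → F) (hβ : ON2 K v₁ v₂ (u : F) β)
    (hβs : Spans K (u : F) β) (z : v₁.integer) (hz : IsInt K (u : F) (z : F))
    (hz2 : v₂ (z : F) ≤ 1) : IsInt k (ρ u) (ρ z) := by
  have hG : Gauss K v₁ (u : F) := S.G1
  obtain ⟨b, hb⟩ := exists_basis_BB hG.inj β (ON2.inj S hβ) hβs
  obtain ⟨e, he, hON⟩ := exists_ON2_basis S β hβ hβs (BB K (u : F)) b hb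
  have hemem : ∀ j, IsInt K (u : F) (e j) := fun j =>
    (he.2 (e j)).2 ⟨Pi.single j 1, by rw [comb_single, map_one, one_mul]⟩
  have hP : ∀ j, ∃ P : Fin d → K[X], (z : F) * e j = comb K (u : F) P e := fun j =>
    (he.2 _).1 (hz.mul (hemem j))
  choose P hP using hP
  have hzN : NN v₁ v₂ (z : F) ≤ 1 := NN_le_iff.2 ⟨z.2, hz2⟩
  have hv : ∀ j i n, v₁ (algebraMap K F ((P j i).coeff n)) ≤ 1 := by
    intro j i
    refine (hG (P j i) 1).1 ?_
    refine (hON (P j) 1).1 ?_ i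
    rw [← hP j]
    refine (NN_mul_le _ _).trans ?_
    rw [hON.NN_eq_one j, mul_one]
    exact hzN
  have hQ : ∀ j i, ∃ Q : (AK K v₁)[X], Q.map (AK K v₁).subtype = P j i := fun j i =>
    exists_lift_poly (P j i) (hv j i)
  choose Q hQ using hQ
  let E : Fin d → v₁.integer := fun j =>
    ⟨e j, (le_NN_left (v₂ := v₂) (e j)).trans (le_of_eq (hON.NN_eq_one j))⟩
  have hE : ∀ j, z * E j = ∑ i, eval₂ (toInt K v₁) u (Q j i) * E i := by
    intro j
    apply Subtype.ext
    have h1 : ((∑ i, eval₂ (toInt K v₁) u (Q j i) * E i : v₁.integer) : F)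
        = ∑ i, aeval (u : F) (P j i) * e i := by
      rw [← Subring.subtype_apply, map_sum]
      refine Finset.sum_congr rfl fun i _ => ?_
      rw [map_mul, Subring.subtype_apply, Subring.subtype_apply, coe_eval₂_toInt, hQ]
    rw [h1]
    exact hP j
  -- the vector `(ρ (E j))_j` is nonzero
  obtain ⟨p1, hp1⟩ := (he.2 1).1 IsInt.one
  have hv1 : ∀ i n, v₁ (algebraMap K F ((p1 i).coeff n)) ≤ 1 := by
    intro i
    refine (hG (p1 i) 1).1 ?_
    refine (hON p1 1).1 ?_ i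
    rw [← hp1, NN_one]
  have hq1 : ∀ i, ∃ q : (AK K v₁)[X], q.map (AK K v₁).subtype = p1 i := fun i =>
    exists_lift_poly (p1 i) (hv1 i)
  choose q1 hq1 using hq1
  have hone : (1 : v₁.integer) = ∑ i, eval₂ (toInt K v₁) u (q1 i) * E i := by
    apply Subtype.ext
    have h1 : ((∑ i, eval₂ (toInt K v₁) u (q1 i) * E i : v₁.integer) : F)
        = ∑ i, aeval (u : F) (p1 i) * e i := by
      rw [← Subring.subtype_apply, map_sum]
      refine Finset.sum_congr rfl fun i _ => ?_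
      rw [map_mul, Subring.subtype_apply, Subring.subtype_apply, coe_eval₂_toInt, hq1]
    rw [h1]
    exact hp1
  have hw : (fun i => ρ (E i)) ≠ 0 := by
    intro h0
    have h2 : ρ 1 = 0 := by
      rw [hone, map_sum]
      refine Finset.sum_eq_zero fun i _ => ?_
      rw [map_mul, show ρ (E i) = 0 from congrFun h0 i, mul_zero]
    rw [map_one] at h2
    exact one_ne_zero h2
  refine intRed_isIntegralElem _ (fun j i => (Q j i).map (resK hρ)) (ρ z) (fun i => ρ (E i))
    hw fun j => ?_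
  rw [← map_mul, hE j, map_sum]
  refine Finset.sum_congr rfl fun i _ => ?_
  rw [map_mul, rho_aeval hρ]
  rfl

end Fermat.Agent.TOR.T1A
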