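import Fermat.Agent.TOR.T1A.Basic
import Fermat.Agent.TOR.T1A.IntRed2
import Fermat.Agent.TOR.KL2.Adapt
import Fermat.Agent.GAL.KL.NearOneAux

/-!
# TOR / T1A : `Chart` and `FrobLike` from `Lift`
-/

set_option autoImplicit false

open Polynomial

noncomputable section

namespace Fermat.Agent.TOR.T1A

open Fermat.Agent.GAL.KL Fermat.Agent.GAL.KLC Fermat.Agent.GAL.KLB Fermat.Agent.TOR.KL2

variable {K F k Γ₀ : Type*} [Field K] [Field F] [Algebra K F] [Field k]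
  [LinearOrderedCommGroupWithZero Γ₀] {v : Valuation F Γ₀} {ρ : v.integer →+* LaurentSeries k}
  {w : F ≃ₐ[K] F}

/-- `w` preserves the chart ring of a `w`-invariant parameter. -/
theorem isInt_w {u : F} (hwu : w u = u) {x : F} (hx : IsInt K u x) : IsInt K u (w x) :=
  isInt_map (w : F →+* F) (RingHom.id K) (fun a => w.commutes a) hwu hx

section

variable [IsAlgClosed K] [CharZero K] (hρ : IsRed K v ρ) (hww : ∀ z, w (w z) = z) (u : v.integer)
  (hwu : w (u : F) = u) (hG : Gauss K v (u : F)) {d : ℕ} (β : Fin d → F)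
  (hβ : ON2 K v (v2 v w) (u : F) β) (hβs : Spans K (u : F) β) {Y : Set F} (hY : YInt K v w Y)
  (hL : Lift K v ρ w Y u)

include hρ hwu hG hβ hβs hL in
/-- every element of `B_u ∩ O` is congruent for `v` to an element of `Y`. -/
theorem exists_Y_of_isInt {b : F} (hb : IsInt K (u : F) b) (hb1 : v b ≤ 1) (hb2 : v (w b) ≤ 1) :
    ∃ y ∈ Y, IsInt K (u : F) y ∧ IsInt K (u : F) (w y) ∧ v (b - y) < 1 :=
  hL ⟨b, hb1⟩ (isInt_rho2 hρ u (setup_of_gauss hG hwu) β hβ hβs ⟨b, hb1⟩ hb hb2)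

include hρ hwu hG hβ hβs hY hL in
theorem rootClosed2_fst {n : ℕ} (hn : 0 < n) : RootClosed2 K v (v2 v w) (u : F) n := by
  intro x b hb hb1 hb2 hxb hx
  have h1 : IsInt k (ρ u) (ρ ⟨b, hb1⟩) :=
    isInt_rho2 hρ u (setup_of_gauss hG hwu) β hβ hβs ⟨b, hb1⟩ hb hb2
  have h2 : ρ (⟨x, hx⟩ : v.integer) ^ n = ρ (⟨b, hb1⟩ : v.integer) := by
    have h := (hρ.ker ((⟨x, hx⟩ : v.integer) ^ n - ⟨b, hb1⟩)).mpr hxb
    rwa [map_sub, map_pow, sub_eq_zero] at h
  rw [← h2] at h1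
  obtain ⟨y, hyY, hy, -, hxy⟩ := hL ⟨x, hx⟩ (h1.of_pow hn)
  exact ⟨y, hy, (hY y hyY).2, hxy⟩

include hρ hww hwu hG hβ hβs hY hL in
theorem rootClosed2_snd {n : ℕ} (hn : 0 < n) : RootClosed2 K (v2 v w) v (u : F) n := by
  intro x b hb hb2 hb1 hxb hx
  obtain ⟨y, hy, hy2, hxy⟩ := rootClosed2_fst hρ u hwu hG β hβ hβs hY hL hn (w x) (w b)
    (isInt_w hwu hb) hb2 (by rw [v2_apply, hww]; exact hb1)
    (by rw [← map_pow, ← map_sub]; exact hxb) hx
  refine ⟨w y, isInt_w hwu hy, hy2, ?_⟩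
  rw [v2_apply, map_sub, hww]
  exact hxy

/-! ### semilinear automorphisms -/

omit [IsAlgClosed K] [CharZero K] in
theorem Semi.isInt {u : F} {σ : F ≃+* F} {σ₀ : K ≃+* K} (hS : Semi K v w u σ σ₀) {x : F}
    (hx : IsInt K u x) : IsInt K u (σ x) :=
  isInt_map (σ : F →+* F) (σ₀ : K →+* K) hS.semi hS.fix hx

omit [IsAlgClosed K] [CharZero K] in
theorem Semi.isInt_symm {u : F} {σ : F ≃+* F} {σ₀ : K ≃+* K} (hS : Semi K v w u σ σ₀) {x : F}
    (hx : IsInt K u x) : IsInt K u (σ.symm x) := by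
  refine isInt_map (σ.symm : F →+* F) (σ₀.symm : K →+* K) (fun a => ?_) ?_ hx
  · change σ.symm (algebraMap K F a) = algebraMap K F (σ₀.symm a)
    rw [RingEquiv.symm_apply_eq, hS.semi, RingEquiv.apply_symm_apply]
  · change σ.symm u = u
    rw [RingEquiv.symm_apply_eq, hS.fix]

omit [IsAlgClosed K] [CharZero K] in
theorem Semi.val2 {u : F} {σ : F ≃+* F} {σ₀ : K ≃+* K} (hS : Semi K v w u σ σ₀) (z : F) :
    v2 v w (σ z) = v2 v w z := by
  rw [v2_apply, v2_apply, ← hS.comm, hS.val]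

omit [IsAlgClosed K] [CharZero K] in
theorem Semi.inv {t : F} {σ : F ≃+* F} {σ₀ : K ≃+* K} (hS : Semi K v w t σ σ₀) :
    Semi K v w t⁻¹ σ σ₀ :=
  ⟨hS.semi, by rw [map_inv₀, hS.fix], hS.comm, hS.val⟩

variable {σ : F ≃+* F} {σ₀ : K ≃+* K} (hS : Semi K v w (u : F) σ σ₀) {q : ℕ} (hF : Frob K v w Y σ q)

include hρ hww hwu hG hβ hβs hY hL hS hF in
/-- the square of a Frobenius lift is Frobenius-like of exponent `q ^ 2`. -/
theorem frobLike_sq (hq : 0 < q) :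
    FrobLike K v (v2 v w) (u : F) ((σ.trans σ : F ≃+* F) : F →+* F) (q ^ 2) := by
  refine FrobLike.of_isom _ _ (fun x hx => hS.isInt (hS.isInt hx))
    (fun x => ?_) (fun x => ?_) (fun b hb hb1 hb2 => ?_)
  · change v (σ (σ x)) = v x
    rw [hS.val, hS.val]
  · change v2 v w (σ (σ x)) = v2 v w x
    rw [hS.val2, hS.val2]
  · change Cond K v (v2 v w) (u : F) (σ (σ b) - b ^ (q ^ 2))
    obtain ⟨y, hyY, hy, hwy, hby⟩ := exists_Y_of_isInt hρ u hwu hG β hβ hβs hL hb hb1 hb2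
    have hσyY := hF.stab y hyY
    have hy1 := (hY y hyY).1
    refine ⟨σ (σ y) - (w (σ y)) ^ q, (hS.isInt (hS.isInt hy)).sub (IsInt.pow ?_ q), ?_, ?_⟩
    · rw [← hS.comm]; exact hS.isInt hwy
    · have h1 : σ (σ b) - b ^ (q ^ 2) - (σ (σ y) - (w (σ y)) ^ q)
          = σ (σ (b - y)) - (b ^ (q ^ 2) - y ^ (q ^ 2)) - ((y ^ q) ^ q - (w (σ y)) ^ q) := by
        rw [map_sub, map_sub, ← pow_mul, ← pow_two]; ring
      rw [h1]
      refine lt_of_le_of_lt (Valuation.map_sub v _ _) (max_lt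
        (lt_of_le_of_lt (Valuation.map_sub v _ _) (max_lt ?_ ?_)) ?_)
      · rw [hS.val, hS.val]; exact hby
      · exact NearOne.congr_pow hby hb1 hy1 _ (pow_pos hq 2)
      · refine NearOne.congr_pow ?_ (by rw [map_pow]; exact pow_le_one' hy1 q) (hY _ hσyY).2 q hq
        rw [Valuation.map_sub_swap]
        exact hF.kron y hyY
    · rw [v2_apply, map_sub, map_pow, hww]
      exact hF.kron _ hσyY

include hρ hww hwu hG hβ hβs hY hL hS hF in
theorem rad_of_lift (hq : 2 ≤ q) : Rad K v (v2 v w) (u : F) := by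
  refine rad_of_frobLike (σ.trans σ) (Q := q ^ 2) (by nlinarith)
    (frobLike_sq hρ hww u hwu hG β hβ hβs hY hL hS hF (by omega))
    (fun x hx => ?_) (fun x => ?_) (fun x => ?_)
  · change IsInt K (u : F) (σ.symm (σ.symm x))
    exact hS.isInt_symm (hS.isInt_symm hx)
  · change v (σ (σ x)) = v x
    rw [hS.val, hS.val]
  · change v2 v w (σ (σ x)) = v2 v w x
    rw [hS.val2, hS.val2]

include hρ hww hwu hG hβ hβs hY hL hS hF in
/-- **all hypotheses on the chart `u`.** -/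
theorem chart_of_lift (hq : 2 ≤ q) {n : ℕ} (hn : 0 < n) : Chart K v (v2 v w) (u : F) n :=
  ⟨rootClosed2_fst hρ u hwu hG β hβ hβs hY hL hn, rootClosed2_snd hρ hww u hwu hG β hβ hβs hY hL hn,
    rad_of_lift hρ hww u hwu hG β hβ hβs hY hL hS hF hq⟩

end

/-- inertia is Frobenius-like of exponent one. -/
theorem frobLike_inert {u : F} {τ : F ≃+* F} {τ₀ : K ≃+* K} (hS : Semi K v w u τ τ₀)
    (hI : Inert v τ) : FrobLike K v (v2 v w) u (τ : F →+* F) 1 :=
  frobLike_one _ (fun _ hx => hS.isInt hx) hS.val hS.val2 (fun b _ hb1 _ => hI b hb1)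

end Fermat.Agent.TOR.T1A
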