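import Fermat.Agent.TOR.KL2.Defs
import Fermat.Agent.GAL.KLC.Defs

/-!
# TOR / T1A : the abstract layer between `KL2.keyLemma2` and the modular functions.  Definitions (no sorry).

`F ⊇ K` a function field (`FL ℚ̄ M`, `M = q M'`), `v` the Gauss valuation of `q`-expansions with reduction map `ρ : O_v → k((Q))`,
`w` an involution of `F/K` (Atkin-Lehner), `v2 v w = v ∘ w` the second valuation, `t` a `w`-invariant parameter (`t = x * w x`),
`θ ≡ (1, 0)`;  `Y` = the integral elements of the old field `F' = FL ℚ̄ M'`.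
-/

set_option autoImplicit false

open Polynomial

noncomputable section

namespace Fermat.Agent.TOR.T1A

open Fermat.Agent.GAL.KL Fermat.Agent.GAL.KLC Fermat.Agent.TOR.KL2

variable (K : Type*) {F k Γ₀ : Type*} [Field K] [Field F] [Algebra K F] [Field k]
  [LinearOrderedCommGroupWithZero Γ₀]

variable {K} in
/-- the second valuation `v ∘ w`. -/
def v2 (v : Valuation F Γ₀) (w : F ≃ₐ[K] F) : Valuation F Γ₀ := v.comap (w : F →+* F)

variable {K} in
@[simp] theorem v2_apply (v : Valuation F Γ₀) (w : F ≃ₐ[K] F) (z : F) : v2 v w z = v (w z) := rfl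

/-- the basic data. -/
structure Base (v : Valuation F Γ₀) (ρ : v.integer →+* LaurentSeries k) (w : F ≃ₐ[K] F)
    (t θ : F) : Prop where
  red : IsRed K v ρ
  ww : ∀ z, w (w z) = z
  wt : w t = t
  t1 : t ∈ v.integer
  tord : (ρ ⟨t, t1⟩).order < 0
  θ1 : v (θ - 1) < 1
  θ2 : v (w θ) < 1

variable {K} in
/-- the family `(θ y_i, w (θ y_i))`. -/
def bet (w : F ≃ₐ[K] F) (θ : F) {d : ℕ} (y : Fin d → F) : Fin (d + d) → F :=
  Fin.append (fun i => θ * y i) (fun i => w (θ * y i))

/-- the set `Y` consists of elements which are integral for both valuations. -/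
def YInt (v : Valuation F Γ₀) (w : F ≃ₐ[K] F) (Y : Set F) : Prop :=
  ∀ y ∈ Y, v y ≤ 1 ∧ v (w y) ≤ 1

/-- **LIFT** on the chart `u`: every element of the residue field of `v` which is integral over `k[ū]` lifts to an element `y ∈ Y`
such that `y` and `w y` lie in the chart ring `B_u`. -/
def Lift (v : Valuation F Γ₀) (ρ : v.integer →+* LaurentSeries k) (w : F ≃ₐ[K] F) (Y : Set F)
    (u : v.integer) : Prop :=
  ∀ z : v.integer, IsInt k (ρ u) (ρ z) →
    ∃ y ∈ Y, IsInt K (u : F) y ∧ IsInt K (u : F) (w y) ∧ v ((z : F) - y) < 1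

/-- a semilinear automorphism of `F` commuting with `w`, fixing `t` and preserving `v`. -/
structure Semi (v : Valuation F Γ₀) (w : F ≃ₐ[K] F) (t : F) (σ : F ≃+* F) (σ₀ : K ≃+* K) : Prop where
  semi : ∀ a, σ (algebraMap K F a) = algebraMap K F (σ₀ a)
  fix : σ t = t
  comm : ∀ z, σ (w z) = w (σ z)
  val : ∀ z, v (σ z) = v z

/-- `σ` is a Frobenius lift: `Y` is stable and the Kronecker congruence `w (σ y) ≡ y ^ q` holds on `Y`. -/
structure Frob (v : Valuation F Γ₀) (w : F ≃ₐ[K] F) (Y : Set F) (σ : F ≃+* F) (q : ℕ) : Prop where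
  stab : ∀ y ∈ Y, σ y ∈ Y
  kron : ∀ y ∈ Y, v (w (σ y) - y ^ q) < 1

/-- `τ` acts trivially on the reduction. -/
def Inert (v : Valuation F Γ₀) (τ : F ≃+* F) : Prop := ∀ z, v z ≤ 1 → v (τ z - z) < 1

/-! ### the old level -/

variable {K} {F' Γ₀' : Type*} [Field F'] [Algebra K F'] [LinearOrderedCommGroupWithZero Γ₀']

/-- compatibility of the reduction maps of `F'` and `F`. -/
structure OldComp (v' : Valuation F' Γ₀') (ρ' : v'.integer →+* LaurentSeries k)
    (v : Valuation F Γ₀) (ρ : v.integer →+* LaurentSeries k) (ι : F' →ₐ[K] F) : Prop where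
  le : ∀ y : F', v' y ≤ 1 ↔ v (ι y) ≤ 1
  rho : ∀ (y : v'.integer) (h : ι (y : F') ∈ v.integer), ρ ⟨ι (y : F'), h⟩ = ρ' y

/-- the integral elements of the old field. -/
def YOld (v' : Valuation F' Γ₀') (ι : F' →ₐ[K] F) : Set F := {y | ∃ y' : F', v' y' ≤ 1 ∧ ι y' = y}

variable (K) in
/-- **LIFT at the old level** (consequence of `KLB.exists_redW_LL_eq`). -/
def Lift1 (v' : Valuation F' Γ₀') (ρ' : v'.integer →+* LaurentSeries k) (u' : v'.integer) : Prop :=
  ∀ z : v'.integer, IsInt k (ρ' u') (ρ' z) →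
    ∃ y : v'.integer, IsInt K (u' : F') (y : F') ∧ ρ' y = ρ' z

end Fermat.Agent.TOR.T1A
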