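import Fermat.Agent.TOR.T1A.Defs
import Fermat.Agent.GAL.KLB.Count

/-!
# TOR / T1A : LIFT at the old level, from the dimension count `KLB.exists_redW_LL_eq`

The proof is contained in the proof of `KLB.rootClosed_of_count` (Fermat/Agent/GAL/KLB/Count.lean, lines 160-209): there `h3 : IsInt k (ρ X) (ρ y)`
(resp. `IsInt k (ρ X)⁻¹ (ρ y)`) is lifted to `z ∈ LL K x a` (resp. `x⁻¹ ^ a * z`).  Copy the second halves of the two bullets.
-/

set_option autoImplicit false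

open Polynomial

noncomputable section

namespace Fermat.Agent.TOR.T1A

open Fermat.Agent.GAL.KL Fermat.Agent.GAL.KLC Fermat.Agent.GAL.KLB

variable {K F k Γ₀ : Type*} [Field K] [Field F] [Algebra K F] [Field k]
  [LinearOrderedCommGroupWithZero Γ₀] {v : Valuation F Γ₀} {ρ : v.integer →+* LaurentSeries k}

/-- **T1A-LIFT1.** -/
theorem lift1_of_count [IsAlgClosed K] [CharZero K] (hρ : IsRed K v ρ) {x x' : F}
    (hx : x ∈ v.integer) (hx' : x' ∈ v.integer) {m : ℕ} (hm : 0 < m)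
    (hxo : (ρ ⟨x, hx⟩).order = -(m : ℤ)) (hxo' : (ρ ⟨x', hx'⟩).order = -(m : ℤ) + 1)
    (hSp : Spans K x (fun i : Fin m => x' ^ (i : ℕ))) {g : ℕ}
    (hRI : ∀ a : ℕ, ((a * m + 1 : ℕ) : ℤ) - g ≤ Module.finrank K (LL K x a))
    (f : Fin g → LaurentSeries k) (hf : LinearIndependent k f) (hf0 : ∀ j, 0 < (f j).order)
    (hb2 : ∀ z : v.integer, IsInt k (ρ ⟨x, hx⟩) (ρ z) → ∀ j, (ρ z * f j).coeff 0 = 0)
    (hv : v x = 1) :
    Lift1 K v ρ ⟨x, hx⟩ ∧ Lift1 K v ρ (invInt ⟨x, hx⟩ hv) := by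
  obtain ⟨a₀, ha₀⟩ := exists_redW_LL_eq hρ hx hx' hm hxo hxo' hSp hRI f hf hf0 hb2
  set X : v.integer := ⟨x, hx⟩ with hX
  have hξ0 : ρ X ≠ 0 := by
    intro h
    rw [h, HahnSeries.order_zero] at hxo
    omega
  constructor
  · intro y h3
    obtain ⟨m₀, hm₀⟩ := IsInt.shift (t := (ρ X)⁻¹) (inv_ne_zero hξ0) (by rw [inv_inv]; exact h3)
    have hmem : ρ y ∈ Bbar hρ (ρ X) (max a₀ m₀) :=
      ⟨⟨h3, hm₀ _ (le_max_right _ _)⟩, _, rfl⟩
    rw [← (ha₀ _ (le_max_left _ _)).1] at hmem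
    obtain ⟨z, hz, hzρ⟩ := hmem
    exact ⟨z, hz.1, hzρ⟩
  · intro y h3
    rw [rho_invInt] at h3
    obtain ⟨m₀, hm₀⟩ := IsInt.shift (t := ρ X) hξ0 h3
    set a := max a₀ m₀ with ha
    have hmem : ρ (X ^ a * y) ∈ Bbar hρ (ρ X) a := by
      refine ⟨⟨?_, ?_⟩, _, rfl⟩
      · rw [map_mul, map_pow]
        exact hm₀ _ (le_max_right _ _)
      · rw [map_mul, map_pow, ← mul_assoc, ← mul_pow, inv_mul_cancel₀ hξ0, one_pow, one_mul]
        exact h3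
    rw [← (ha₀ _ (le_max_left _ _)).1] at hmem
    obtain ⟨z, hz, hzρ⟩ := hmem
    refine ⟨invInt X hv ^ a * z, hz.2, ?_⟩
    rw [map_mul, map_pow, rho_invInt, hzρ, map_mul, map_pow, ← mul_assoc, ← mul_pow,
      inv_mul_cancel₀ hξ0, one_pow, one_mul]

end Fermat.Agent.TOR.T1A
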