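import Fermat.Agent.TOR.T1A.Defs
import Fermat.Agent.GAL.KL.Basic

/-!
# TOR / T1A : `Lift` on the chart `u` of `F` from `Lift1` on the chart `u'` of the old field `F'`
-/

set_option autoImplicit false

open Polynomial

noncomputable section

namespace Fermat.Agent.TOR.T1A

open Fermat.Agent.GAL.KL Fermat.Agent.GAL.KLC Fermat.Agent.TOR.KL2

/-- integrality over `k[ξ ^ N]` implies integrality over `k[ξ]`. -/
theorem isInt_of_pow_param {k R : Type*} [Field k] [Field R] [Algebra k R] {ξ φ : R} (N : ℕ)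
    (h : IsInt k (ξ ^ N) φ) : IsInt k ξ φ := by
  obtain ⟨p, hp, hpx⟩ := h
  refine ⟨p.map ((expand k N : k[X] →ₐ[k] k[X]) : k[X] →+* k[X]), hp.map _, ?_⟩
  rw [eval₂_map]
  have h1 : (((aeval ξ : k[X] →ₐ[k] R) : k[X] →+* R).comp
      ((expand k N : k[X] →ₐ[k] k[X]) : k[X] →+* k[X]))
      = ((aeval (ξ ^ N) : k[X] →ₐ[k] R) : k[X] →+* R) := by
    refine Polynomial.ringHom_ext (fun a => ?_) ?_
    · simp
    · simp
  rw [h1]
  exact hpx

variable {K F k Γ₀ : Type*} [Field K] [Field F] [Algebra K F] [Field k]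
  [LinearOrderedCommGroupWithZero Γ₀] {v : Valuation F Γ₀} {ρ : v.integer →+* LaurentSeries k}
  {w : F ≃ₐ[K] F}
  {F' Γ₀' : Type*} [Field F'] [Algebra K F'] [LinearOrderedCommGroupWithZero Γ₀']
  {v' : Valuation F' Γ₀'} {ρ' : v'.integer →+* LaurentSeries k} {ι : F' →ₐ[K] F}

/-- `h3` : integrality over `k[ū]` implies integrality over `k[ū']`  (`ū = ū' ^ (q+1)`);
`h4` : the old chart ring and its image under `w` lie in the chart ring `B_u` (places);
`hF1` : `resField`. -/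
theorem lift_of_old (hρ : IsRed K v ρ) (C : OldComp v' ρ' v ρ ι) (u : v.integer) (u' : v'.integer)
    (h3 : ∀ φ, IsInt k (ρ u) φ → IsInt k (ρ' u') φ) (hL1 : Lift1 K v' ρ' u')
    (h4 : ∀ y' : F', IsInt K (u' : F') y' → IsInt K (u : F) (ι y') ∧ IsInt K (u : F) (w (ι y')))
    (hF1 : ∀ z : v.integer, ∃ z' : v'.integer, ρ z = ρ' z') : Lift K v ρ w (YOld v' ι) u := by
  intro z hz
  obtain ⟨z', hz'⟩ := hF1 z
  obtain ⟨y', hy', hyz⟩ := hL1 z' (by rw [← hz']; exact h3 _ hz)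
  have hmem : ι (y' : F') ∈ v.integer := (C.le _).1 y'.2
  refine ⟨ι (y' : F'), ⟨y', y'.2, rfl⟩, (h4 _ hy').1, (h4 _ hy').2, ?_⟩
  have h := (hρ.ker (z - ⟨ι (y' : F'), hmem⟩)).1 (by rw [map_sub, C.rho, hyz, hz', sub_self])
  exact h

end Fermat.Agent.TOR.T1A
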