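import Fermat.Agent.TOR.T1A.Chart
import Fermat.Agent.TOR.KL2.Main

/-!
# TOR / T1A : the two abstract theorems (inertia, square of Frobenius) from the list of hypotheses `Full`
-/

set_option autoImplicit false

open Polynomial IntermediateField

noncomputable section

namespace Fermat.Agent.TOR.T1A

open Fermat.Agent.GAL.KL Fermat.Agent.GAL.KLC Fermat.Agent.GAL.KLB Fermat.Agent.TOR.KL2

variable {K F k Γ₀ : Type*} [Field K] [Field F] [Algebra K F] [Field k]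
  [LinearOrderedCommGroupWithZero Γ₀]

/-- all abstract hypotheses. -/
structure Full (K : Type*) {F k Γ₀ : Type*} [Field K] [Field F] [Algebra K F] [Field k]
    [LinearOrderedCommGroupWithZero Γ₀] (v : Valuation F Γ₀) (ρ : v.integer →+* LaurentSeries k)
    (w : F ≃ₐ[K] F) (t θ : F) (Y : Set F) (σ : F ≃+* F) (σ₀ : K ≃+* K) (q : ℕ) {d : ℕ}
    (y : Fin d → F) : Prop where
  base : Base K v ρ w t θ
  arch : Arch v
  on : ON K v t y
  y2 : ∀ i, v (w (y i)) ≤ 1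
  fin : FiniteDimensional K⟮t⟯ F
  rank : Module.finrank K⟮t⟯ F ≤ d + d
  yint : YInt K v w Y
  lift0 : ∀ u : v.integer, (u : F) = t → Lift K v ρ w Y u
  liftoo : ∀ u : v.integer, (u : F) = t⁻¹ → Lift K v ρ w Y u
  semi : Semi K v w t σ σ₀
  frob : Frob K v w Y σ q
  q2 : 2 ≤ q

variable {v : Valuation F Γ₀} {ρ : v.integer →+* LaurentSeries k}
  {w : F ≃ₐ[K] F} {t θ : F} {Y : Set F} {σ : F ≃+* F} {σ₀ : K ≃+* K} {q : ℕ} {d : ℕ} {y : Fin d → F}

section

variable [IsAlgClosed K] [CharZero K] (H : Full K v ρ w t θ Y σ σ₀ q y)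

include H

theorem Full.on2 : ON2 K v (v2 v w) t (bet w θ y) := H.base.on2 y H.on H.y2

theorem Full.spans : Spans K t (bet w θ y) := H.base.spans y H.on H.y2 H.fin H.rank

theorem Full.chart0 {n : ℕ} (hn : 0 < n) : Chart K v (v2 v w) t n :=
  chart_of_lift H.base.red H.base.ww ⟨t, H.base.t1⟩ H.base.wt H.base.gauss _ H.on2 H.spans H.yint
    (H.lift0 _ rfl) H.semi H.frob H.q2 hn

theorem Full.tinv_mem : t⁻¹ ∈ v.integer := by
  rw [Valuation.mem_integer_iff, map_inv₀, H.base.gauss.v_t, inv_one]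

theorem Full.chartoo {n : ℕ} (hn : 0 < n) : Chart K v (v2 v w) t⁻¹ n :=
  chart_of_lift H.base.red H.base.ww ⟨t⁻¹, H.tinv_mem⟩ (by rw [map_inv₀, H.base.wt])
    H.base.gauss.inv _ (H.on2.inv H.base.setup) (H.spans.inv H.base.gauss.ne_zero) H.yint
    (H.liftoo _ rfl) H.semi.inv H.frob H.q2 hn

theorem Full.frob0 : FrobLike K v (v2 v w) t ((σ.trans σ : F ≃+* F) : F →+* F) (q ^ 2) :=
  frobLike_sq H.base.red H.base.ww ⟨t, H.base.t1⟩ H.base.wt H.base.gauss _ H.on2 H.spans H.yint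
    (H.lift0 _ rfl) H.semi H.frob (by have := H.q2; omega)

theorem Full.froboo : FrobLike K v (v2 v w) t⁻¹ ((σ.trans σ : F ≃+* F) : F →+* F) (q ^ 2) :=
  frobLike_sq H.base.red H.base.ww ⟨t⁻¹, H.tinv_mem⟩ (by rw [map_inv₀, H.base.wt])
    H.base.gauss.inv _ (H.on2.inv H.base.setup) (H.spans.inv H.base.gauss.ne_zero) H.yint
    (H.liftoo _ rfl) H.semi.inv H.frob (by have := H.q2; omega)

/-- **Theorem B** (square of a Frobenius lift): on toric classes `σ² = q²`. -/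
theorem thmB {n : ℕ} (hn : 0 < n) (hvn : v (n : F) = 1) {W : F} (hW1 : v (W - 1) < 1)
    (hW2 : v (w W - 1) < 1)
    (hU0 : ∀ c : K, LocPow K t n W c) (hUoo : ∀ c : K, LocPow K t⁻¹ n W c)
    (hU0' : ∀ c : K, LocPow K t n (σ (σ W) / W ^ (q ^ 2)) c)
    (hUoo' : ∀ c : K, LocPow K t⁻¹ n (σ (σ W) / W ^ (q ^ 2)) c) :
    ∃ z : F, z ^ n = σ (σ W) / W ^ (q ^ 2) :=
  keyLemma2 H.arch (arch2 H.arch) H.base.setup _ H.on2 H.spans hn hvn (H.chart0 hn) (H.chartoo hn)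
    ((σ.trans σ : F ≃+* F) : F →+* F) (pow_pos (by have := H.q2; omega) 2) H.frob0 H.froboo
    (NN_lt_iff.2 ⟨hW1, by rw [v2_apply, map_sub, map_one]; exact hW2⟩) hU0 hUoo hU0' hUoo'

/-- **Theorem A** (inertia): `(τ - 1)` kills the toric classes. -/
theorem thmA {τ : F ≃+* F} {τ₀ : K ≃+* K} (hτ : Semi K v w t τ τ₀) (hI : Inert v τ)
    {n : ℕ} (hn : 0 < n) (hvn : v (n : F) = 1) {W : F} (hW1 : v (W - 1) < 1)
    (hW2 : v (w W - 1) < 1)
    (hU0 : ∀ c : K, LocPow K t n W c) (hUoo : ∀ c : K, LocPow K t⁻¹ n W c)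
    (hU0' : ∀ c : K, LocPow K t n (τ W / W) c)
    (hUoo' : ∀ c : K, LocPow K t⁻¹ n (τ W / W) c) :
    ∃ z : F, z ^ n = τ W / W := by
  have h := keyLemma2 H.arch (arch2 H.arch) H.base.setup _ H.on2 H.spans hn hvn (H.chart0 hn)
    (H.chartoo hn) (τ : F →+* F) one_pos (frobLike_inert hτ hI) (frobLike_inert hτ.inv hI)
    (NN_lt_iff.2 ⟨hW1, by rw [v2_apply, map_sub, map_one]; exact hW2⟩) hU0 hUoo
    (by simpa using hU0') (by simpa using hUoo')
  simpa using h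

end

end Fermat.Agent.TOR.T1A
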