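import Fermat.Agent.TOR.T1A.Defs
import Fermat.Agent.GAL.KLC.GaussON

/-!
# TOR / T1A : orthonormality from distinct orders modulo `N = -ord t̄`

Generalisation of `KLC.on_of_isRed` (Fermat/Agent/GAL/KLC/GaussON.lean, lines 309-419): same proof.
PROOF of `on_of_orders`.  `≤`: clear (`v (y i) ≤ 1`).  `≥`: normalise by a constant so that `max_i v (p_i(t)) = 1` (`Gauss.exists_const`); reduce (`exists_red_poly`):
`ρ (∑ p_i(t) y_i) = ∑ p̄_i(t̄) ȳ_i`; the nonzero terms have orders `-N deg p̄_i + ord ȳ_i` (`order_aeval`), pairwise distinct by `hdist`; so the sum is nonzero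
(`GaussON_sum_ne_zero`), i.e. `v (∑ ...) = 1`.
-/

set_option autoImplicit false

open Polynomial

noncomputable section

namespace Fermat.Agent.TOR.T1A

open Fermat.Agent.GAL.KL Fermat.Agent.GAL.KLC

variable {K F k Γ₀ : Type*} [Field K] [Field F] [Algebra K F] [Field k]
  [LinearOrderedCommGroupWithZero Γ₀] {v : Valuation F Γ₀} {ρ : v.integer →+* LaurentSeries k}

/-- **T1A-ORD (1).** -/
theorem on_of_orders (hρ : IsRed K v ρ) (t : v.integer) {N : ℕ} (hN : 0 < N)
    (hto : (ρ t).order = -(N : ℤ)) {d : ℕ} (y : Fin d → v.integer) (hy0 : ∀ i, ρ (y i) ≠ 0)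
    (hdist : ∀ i j, (N : ℤ) ∣ (ρ (y i)).order - (ρ (y j)).order → i = j) :
    ON K v (t : F) (fun i => (y i : F)) := by
  have hto0 : (ρ ⟨(t : F), t.2⟩).order < 0 := by
    show (ρ t).order < 0
    rw [hto]; omega
  have hG : Gauss K v (t : F) := gauss_of_isRed hρ t.2 hto0
  intro p γ
  constructor
  · intro h i₁
    obtain ⟨i₀, -, hmax⟩ := Finset.exists_max_image (Finset.univ : Finset (Fin d))
      (fun i => v (aeval (t : F) (p i))) ⟨i₁, Finset.mem_univ _⟩
    have hmax' : ∀ i, v (aeval (t : F) (p i)) ≤ v (aeval (t : F) (p i₀)) :=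
      fun i => hmax i (Finset.mem_univ _)
    obtain ⟨a, ha⟩ := hG.exists_const (p i₀)
    by_cases hva : v (algebraMap K F a) = 0
    · have := hmax' i₁
      rw [ha, hva] at this
      exact this.trans zero_le
    have ha0 : a ≠ 0 := by
      rintro rfl
      apply hva
      rw [map_zero, map_zero]
    set p' : Fin d → K[X] := fun i => C a⁻¹ * p i with hp'
    have hp'v : ∀ i, v (aeval (t : F) (p' i))
        = (v (algebraMap K F a))⁻¹ * v (aeval (t : F) (p i)) := by
      intro i
      rw [hp']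
      simp only
      rw [map_mul, aeval_C, map_mul, map_inv₀, map_inv₀]
    have hp'1 : ∀ i, v (aeval (t : F) (p' i)) ≤ 1 := by
      intro i
      rw [hp'v, inv_mul_le_iff₀ (zero_lt_iff.mpr hva), mul_one, ← ha]
      exact hmax' i
    have hp'c : ∀ i j, v (algebraMap K F ((p' i).coeff j)) ≤ 1 :=
      fun i => (hG (p' i) 1).mp (hp'1 i)
    choose pb hmem hred _ _ using fun i => exists_red_poly hρ t.2 (p' i) (hp'c i)
    have hpb0 : pb i₀ ≠ 0 := by
      intro h0
      have h1 := hred i₀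
      rw [h0, map_zero, hρ.ker] at h1
      change v (aeval (t : F) (p' i₀)) < 1 at h1
      rw [hp'v, ha, inv_mul_cancel₀ hva] at h1
      exact lt_irrefl _ h1
    set tb := ρ ⟨(t : F), t.2⟩ with htb
    have htbo : tb.order = -(N : ℤ) := hto
    have hterm : ∀ i : Fin d, aeval tb (pb i) * ρ (y i) ≠ 0 → pb i ≠ 0 := by
      intro i h h0
      rw [h0, map_zero, zero_mul] at h
      exact h rfl
    have hord : ∀ i : Fin d, pb i ≠ 0 → (aeval tb (pb i) * ρ (y i)).order =
        -(N : ℤ) * (pb i).natDegree + (ρ (y i)).order := by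
      intro i hi
      rw [HahnSeries.order_mul (order_aeval hto0 _ hi).1 (hy0 i), (order_aeval hto0 _ hi).2, htbo]
      ring
    obtain ⟨-, -, -, -, hs0, -⟩ := GaussON_sum_ne_zero (Finset.univ : Finset (Fin d))
      (fun i => aeval tb (pb i) * ρ (y i))
      (by
        intro i _ j _ hi hj hij
        rw [hord i (hterm i hi), hord j (hterm j hj)] at hij
        apply hdist
        exact ⟨((pb i).natDegree : ℤ) - (pb j).natDegree, by linarith⟩)
      ⟨i₀, Finset.mem_univ _, mul_ne_zero (order_aeval hto0 _ hpb0).1 (hy0 i₀)⟩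
    -- the scaled combination
    set z : v.integer := ∑ i : Fin d, ⟨aeval (t : F) (p' i), hmem i⟩ * y i with hz
    have hzc : (z : F) = (algebraMap K F a)⁻¹ * comb K (t : F) p (fun i : Fin d => (y i : F)) := by
      rw [hz, comb, Finset.mul_sum]
      push_cast
      apply Finset.sum_congr rfl
      intro i _
      rw [hp']
      simp only
      rw [map_mul, aeval_C, map_inv₀, mul_assoc]
    have hρz : ρ z ≠ 0 := by
      rw [hz, map_sum]
      simp only [map_mul, hred]
      exact hs0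
    have h1 : ¬ v (z : F) < 1 := fun h2 => hρz ((hρ.ker z).mpr h2)
    rw [not_lt, hzc, map_mul, map_inv₀, le_inv_mul_iff₀ (zero_lt_iff.mpr hva), mul_one] at h1
    exact (((hmax' i₁).trans ha.le).trans h1).trans h
  · intro h
    rw [comb]
    apply Valuation.map_sum_le
    intro i _
    rw [map_mul]
    calc v (aeval (t : F) (p i)) * v (y i : F) ≤ γ * 1 := mul_le_mul' (h i) (y i).2
      _ = γ := mul_one γ

/-- **T1A-ORD (2).**  The family `x^a x'^i`, `a ≤ q`, `i < m` (index `j = a m + i`), for a parameter `t` with `ord t̄ = -(q+1) m`.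
(`ord (x̄^a x̄'^i) = -(a m + i (m-1))`; `(q+1) m ∣ (a-a') m + (i-i')(m-1)` ⇒ `m ∣ i - i'` ⇒ `i = i'` ⇒ `q+1 ∣ a - a'` ⇒ `a = a'`.) -/
theorem on_xx (hρ : IsRed K v ρ) (t x x' : v.integer) {m q : ℕ} (hm : 0 < m)
    (hxo : (ρ x).order = -(m : ℤ)) (hxo' : (ρ x').order = -(m : ℤ) + 1)
    (hto : (ρ t).order = -(((q + 1) * m : ℕ) : ℤ)) :
    ON K v (t : F) (fun j : Fin ((q + 1) * m) => (x : F) ^ ((j : ℕ) / m) * (x' : F) ^ ((j : ℕ) % m)) := by
  have hx0 : ρ x ≠ 0 := by
    intro h0
    rw [h0, HahnSeries.order_zero] at hxo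
    omega
  have hx'0 : ∀ i : ℕ, i < m → (ρ x') ^ i ≠ 0 := by
    intro i hi
    by_cases hi0 : i = 0
    · rw [hi0, pow_zero]; exact one_ne_zero
    · apply pow_ne_zero
      intro h0
      rw [h0, HahnSeries.order_zero] at hxo'
      omega
  have hord : ∀ j : Fin ((q + 1) * m), (ρ (x ^ ((j : ℕ) / m) * x' ^ ((j : ℕ) % m))).order
      = -(m : ℤ) * (((j : ℕ) / m : ℕ) + ((j : ℕ) % m : ℕ)) + ((j : ℕ) % m : ℕ) := by
    intro j
    rw [map_mul, map_pow, map_pow,
      HahnSeries.order_mul (pow_ne_zero _ hx0) (hx'0 _ (Nat.mod_lt _ hm)),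
      HahnSeries.order_pow, HahnSeries.order_pow, hxo, hxo', nsmul_eq_mul, nsmul_eq_mul]
    ring
  have key := on_of_orders hρ t (N := (q + 1) * m) (Nat.mul_pos (Nat.succ_pos q) hm) hto
    (fun j : Fin ((q + 1) * m) => x ^ ((j : ℕ) / m) * x' ^ ((j : ℕ) % m))
    (by
      intro j
      rw [map_mul, map_pow, map_pow]
      exact mul_ne_zero (pow_ne_zero _ hx0) (hx'0 _ (Nat.mod_lt _ hm)))
    (by
      intro j j' hd
      rw [hord j, hord j'] at hd
      have hj := j.2
      have hj' := j'.2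
      have ha : (j : ℕ) / m < q + 1 := Nat.div_lt_of_lt_mul (lt_of_lt_of_eq hj (mul_comm _ _))
      have ha' : (j' : ℕ) / m < q + 1 := Nat.div_lt_of_lt_mul (lt_of_lt_of_eq hj' (mul_comm _ _))
      have hi : (j : ℕ) % m < m := Nat.mod_lt _ hm
      have hi' : (j' : ℕ) % m < m := Nat.mod_lt _ hm
      have e := Nat.div_add_mod (j : ℕ) m
      have e' := Nat.div_add_mod (j' : ℕ) m
      generalize (j : ℕ) / m = a at *
      generalize (j' : ℕ) / m = a' at *
      generalize (j : ℕ) % m = i at *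
      generalize (j' : ℕ) % m = i' at *
      obtain ⟨c, hc⟩ := hd
      push_cast at hc
      have h2 : (m : ℤ) ∣ (i : ℤ) - i' :=
        ⟨((q : ℤ) + 1) * c + ((a : ℤ) + i) - ((a' : ℤ) + i'), by linarith⟩
      have h3 : (i : ℤ) - i' = 0 := by
        apply Int.eq_zero_of_abs_lt_dvd h2
        rw [abs_lt]
        constructor <;> omega
      have hii : i = i' := by omega
      subst hii
      have hm0 : (m : ℤ) ≠ 0 := by omega
      have h4 : (a' : ℤ) - a = ((q : ℤ) + 1) * c := by
        apply mul_left_cancel₀ hm0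
        linarith
      have h5 : (a' : ℤ) - a = 0 := by
        apply Int.eq_zero_of_abs_lt_dvd ⟨c, h4⟩
        rw [abs_lt]
        constructor <;> omega
      have haa : a = a' := by omega
      subst haa
      apply Fin.ext
      omega)
  exact key

end Fermat.Agent.TOR.T1A
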