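import Fermat.Agent.TOR.T1A.Basic
import Fermat.Agent.GAL.KLB.Count

/-!
# TOR / T1A : (F1) the residue field of `v` on `F` is the residue field of the old field `F'`

PROOF.  Let `z ∈ O_v`.
Step 1.  `v (w θ) < 1`, so by `Arch` there is `N` with `v (w (θ^N z)) ≤ 1`; `ρ θ = 1` (`θ1`, `IsRed.ker`), so `ρ (θ^N z) = ρ z`.  So we may assume `NN z ≤ 1`.
Step 2.  `Spans`: `g(t) z = comb p β`, `g ≠ 0`; multiply by a constant so that `v (g(t)) = 1` (`Gauss.exists_const`).  ON2 ⇒ `v (p_i(t)) ≤ 1`.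
Apply `ρ` (`KLC.exists_red_poly`): `ḡ(t̄) ρ z = ∑_{i<d} p̄_i(t̄) ρ(θ ι y'_i) + ∑ p̄_{d+i}(t̄) ρ(w(θ ι y'_i))`, with `ρ (θ ι y') = ρ' y'`, and `ρ (w (θ ι y')) = 0` because
`v (w θ) < 1`, `v (w (ι y')) ≤ 1` (`hy2`).  `ḡ(t̄) ≠ 0`.
Step 3.  `R' := range ρ'` is a subfield of `k((Q))` (if `ρ' a ≠ 0` then `v' a = 1`, `KLB.invInt`, `KLB.rho_invInt`) containing the constants (`IsRed.const_surj`) and `t̄ = ρ' t'`; so it
contains `ḡ(t̄)`, `p̄_i(t̄)`, hence `ρ z`.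
-/

set_option autoImplicit false

open Polynomial

noncomputable section

namespace Fermat.Agent.TOR.T1A

open Fermat.Agent.GAL.KL Fermat.Agent.GAL.KLC Fermat.Agent.GAL.KLB Fermat.Agent.TOR.KL2

variable {K F k Γ₀ : Type*} [Field K] [Field F] [Algebra K F] [Field k]
  [LinearOrderedCommGroupWithZero Γ₀] {v : Valuation F Γ₀} {ρ : v.integer →+* LaurentSeries k}
  {w : F ≃ₐ[K] F} {t θ : F}
  {F' Γ₀' : Type*} [Field F'] [Algebra K F'] [LinearOrderedCommGroupWithZero Γ₀']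
  {v' : Valuation F' Γ₀'} {ρ' : v'.integer →+* LaurentSeries k} {ι : F' →ₐ[K] F}

/-- the range of a reduction map is stable under inversion -/
theorem ResField_inv_mem (hρ' : IsRed K v' ρ') {x : LaurentSeries k} (hx : x ∈ ρ'.range) :
    x⁻¹ ∈ ρ'.range := by
  obtain ⟨a, rfl⟩ := hx
  by_cases h0 : ρ' a = 0
  · rw [h0, inv_zero]; exact Subring.zero_mem _
  · have h1 : v' (a : F') = 1 := by
      have := (hρ'.ker a).not.1 h0
      exact le_antisymm a.2 (not_lt.1 this)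
    exact ⟨invInt a h1, rho_invInt a h1⟩

/-- the range of a reduction map contains `k[t̄]` -/
theorem ResField_aeval_mem (hρ' : IsRed K v' ρ') (t' : v'.integer) (pb : k[X]) :
    aeval (ρ' t') pb ∈ ρ'.range := by
  obtain ⟨p, h, -, -, hh⟩ := exists_lift_poly hρ' t'.2 pb
  exact ⟨⟨aeval (t' : F') p, h⟩, hh⟩

theorem ResField_exists_pow (hA : Arch v) {x : F} (hx : v x < 1) (c : Γ₀) :
    ∃ m : ℕ, v x ^ m * c ≤ 1 := by
  by_cases hc : c = 0
  · exact ⟨0, by simp [hc]⟩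
  · obtain ⟨m, hm⟩ := hA x hx c⁻¹ (inv_ne_zero hc)
    refine ⟨m, ?_⟩
    have := mul_le_mul' hm.le (le_refl c)
    rwa [inv_mul_cancel₀ hc] at this

theorem Base.ResField_θ_mem (B : Base K v ρ w t θ) : θ ∈ v.integer := by
  rw [Valuation.mem_integer_iff]
  have h : θ = (θ - 1) + 1 := by ring
  rw [h]
  exact (v.map_add _ _).trans (max_le B.θ1.le (by rw [map_one]))

theorem Base.ResField_rho_θ (B : Base K v ρ w t θ) : ρ ⟨θ, B.ResField_θ_mem⟩ = 1 := by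
  have h : ρ (⟨θ, B.ResField_θ_mem⟩ - 1) = 0 := (B.red.ker _).2 B.θ1
  rwa [map_sub, map_one, sub_eq_zero] at h

/-- the case `NN z ≤ 1` (steps 2 and 3) -/
theorem ResField_aux (B : Base K v ρ w t θ) (hρ' : IsRed K v' ρ')
    (hC : OldComp v' ρ' v ρ ι) {d : ℕ} (y' : Fin d → v'.integer)
    (hy2 : ∀ i, v (w (ι (y' i : F'))) ≤ 1)
    (hβ : ON2 K v (v2 v w) t (bet w θ (fun i => ι (y' i : F'))))
    (hβs : Spans K t (bet w θ (fun i => ι (y' i : F'))))
    (t' : v'.integer) (ht' : ρ' t' = ρ ⟨t, B.t1⟩) (z : v.integer) (hz : v (w (z : F)) ≤ 1) :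
    ρ z ∈ ρ'.range := by
  have hG := B.gauss
  have hS := B.setup
  -- the subring of `F` of elements of `O_v` whose reduction lies in the range of `ρ'`
  let T : Subring F := (ρ'.range.comap ρ).map v.integer.subtype
  have hT : ∀ (x : F) (hx : x ∈ v.integer), ρ ⟨x, hx⟩ ∈ ρ'.range → x ∈ T :=
    fun x hx h => ⟨⟨x, hx⟩, h, rfl⟩
  have hpoly : ∀ p : K[X], v (aeval t p) ≤ 1 → aeval t p ∈ T := by
    intro p hp
    obtain ⟨pb, h, hh, -, -⟩ := exists_red_poly B.red B.t1 p ((hG p 1).1 hp)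
    refine hT _ h ?_
    rw [hh, ← ht']
    exact ResField_aeval_mem hρ' t' pb
  have hbet : ∀ i, bet w θ (fun i => ι (y' i : F')) i ∈ T := by
    intro i
    induction i using Fin.addCases with
    | left j =>
      have e : bet w θ (fun i => ι (y' i : F')) (Fin.castAdd d j) = θ * ι (y' j : F') :=
        Fin.append_left _ _ j
      rw [e]
      have h1 : ι (y' j : F') ∈ v.integer := (hC.le _).1 (y' j).2
      refine T.mul_mem (hT _ B.ResField_θ_mem ?_) (hT _ h1 ?_)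
      · rw [B.ResField_rho_θ]; exact Subring.one_mem _
      · rw [hC.rho]; exact ⟨_, rfl⟩
    | right j =>
      have e : bet w θ (fun i => ι (y' i : F')) (Fin.natAdd d j) = w (θ * ι (y' j : F')) :=
        Fin.append_right _ _ j
      rw [e]
      have h1 : v (w (θ * ι (y' j : F'))) < 1 := by
        rw [map_mul, map_mul]
        exact mul_lt_one_of_lt_of_le B.θ2 (hy2 j)
      refine hT _ h1.le ?_
      rw [(B.red.ker _).2 h1]
      exact Subring.zero_mem _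
  -- the relation
  obtain ⟨g, p, hg, hgp⟩ := hβs (z : F)
  have hg0 : aeval t g ≠ 0 := fun h => hg (hG.inj g h)
  obtain ⟨a, ha⟩ := hG.exists_const g
  have ha0 : a ≠ 0 := by
    rintro rfl
    rw [map_zero, map_zero, map_eq_zero] at ha
    exact hg0 ha
  have hva : v (algebraMap K F a) ≠ 0 := by
    rw [Ne, map_eq_zero, map_eq_zero]; exact ha0
  have hg1 : v (aeval t (C a⁻¹ * g)) = 1 := by
    rw [map_mul, aeval_C, map_mul, ha, map_inv₀, map_inv₀, inv_mul_cancel₀ hva]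
  have hrel : aeval t (C a⁻¹ * g) * (z : F)
      = comb K t (fun i => C a⁻¹ * p i) (bet w θ (fun i => ι (y' i : F'))) := by
    rw [comb_smul, ← hgp, map_mul, mul_assoc]
  have hNN : NN v (v2 v w) (comb K t (fun i => C a⁻¹ * p i) (bet w θ (fun i => ι (y' i : F'))))
      ≤ 1 := by
    rw [← hrel, hS.NN_aeval_mul, hg1, one_mul, NN_le_iff]
    exact ⟨z.2, hz⟩
  have hp1 := (hβ _ 1).1 hNN
  have hmem : aeval t (C a⁻¹ * g) * (z : F) ∈ T := by
    rw [hrel]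
    exact T.sum_mem fun i _ => T.mul_mem (hpoly _ (hp1 i)) (hbet i)
  obtain ⟨u, hu, huz⟩ := hmem
  have hgm : aeval t (C a⁻¹ * g) ∈ v.integer := hg1.le
  have hu' : u = ⟨aeval t (C a⁻¹ * g), hgm⟩ * z := Subtype.ext huz
  have hρg : ρ ⟨aeval t (C a⁻¹ * g), hgm⟩ ≠ 0 := by
    rw [Ne, B.red.ker]
    exact not_lt.2 hg1.ge
  obtain ⟨_, hgT, hgT'⟩ := hpoly _ hg1.le
  have hgR : ρ ⟨aeval t (C a⁻¹ * g), hgm⟩ ∈ ρ'.range := by
    have : (⟨aeval t (C a⁻¹ * g), hgm⟩ : v.integer) = _ := Subtype.ext hgT'.symm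
    rw [this]; exact hgT
  have hfin : ρ z = (ρ ⟨aeval t (C a⁻¹ * g), hgm⟩)⁻¹ * ρ u := by
    rw [hu', RingHom.map_mul ρ, inv_mul_cancel_left₀ hρg]
  rw [hfin]
  exact Subring.mul_mem _ (ResField_inv_mem hρ' hgR) hu

/-- **T1A-RESFIELD.** -/
theorem resField (B : Base K v ρ w t θ) (hA : Arch v) (hρ' : IsRed K v' ρ')
    (C : OldComp v' ρ' v ρ ι) {d : ℕ} (y' : Fin d → v'.integer)
    (hy2 : ∀ i, v (w (ι (y' i : F'))) ≤ 1)
    (hβ : ON2 K v (v2 v w) t (bet w θ (fun i => ι (y' i : F'))))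
    (hβs : Spans K t (bet w θ (fun i => ι (y' i : F'))))
    (t' : v'.integer) (ht' : ρ' t' = ρ ⟨t, B.t1⟩) :
    ∀ z : v.integer, ∃ z' : v'.integer, ρ z = ρ' z' := by
  intro z
  obtain ⟨m, hm⟩ := ResField_exists_pow hA B.θ2 (v (w (z : F)))
  have h1 : v (w (((⟨θ, B.ResField_θ_mem⟩ ^ m * z : v.integer) : F))) ≤ 1 := by
    push_cast
    rw [map_mul, map_pow, map_mul, map_pow]
    exact hm
  obtain ⟨z', hz'⟩ := ResField_aux B hρ' C y' hy2 hβ hβs t' ht' _ h1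
  refine ⟨z', ?_⟩
  rw [hz', map_mul, map_pow, B.ResField_rho_θ, one_pow, one_mul]

end Fermat.Agent.TOR.T1A
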