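import Fermat.Agent.TOR.T1A.Main
import Fermat.Agent.TOR.T1A.OnOrders
import Fermat.Agent.TOR.T1A.ResField
import Fermat.Agent.TOR.T1A.LiftOld

/-!
# TOR / T1A : THE CONTRACT FOR THE MODULAR SIDE  (`OldData`)  and  `OldData → Full`

`F' = FL ℚ̄ M'`, `F = FL ℚ̄ (q M')`, `ι : F' → F` the inclusion, `x, x'` the KLC functions of level `M'`, `t = x * w x`.
-/

set_option autoImplicit false

open Polynomial IntermediateField

noncomputable section

namespace Fermat.Agent.TOR.T1A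

open Fermat.Agent.GAL.KL Fermat.Agent.GAL.KLC Fermat.Agent.GAL.KLB Fermat.Agent.TOR.KL2

/-- **the contract for the modular side.** -/
structure OldData (K : Type*) {F F' k Γ₀ Γ₀' : Type*} [Field K] [Field F] [Algebra K F] [Field F']
    [Algebra K F'] [Field k] [LinearOrderedCommGroupWithZero Γ₀]
    [LinearOrderedCommGroupWithZero Γ₀']
    (v : Valuation F Γ₀) (ρ : v.integer →+* LaurentSeries k)
    (v' : Valuation F' Γ₀') (ρ' : v'.integer →+* LaurentSeries k) (ι : F' →ₐ[K] F)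
    (w : F ≃ₐ[K] F) (x x' : v'.integer) (m q : ℕ) (θ : F) (σ : F ≃+* F) (σ₀ : K ≃+* K) : Prop where
  /-- valuations and reductions (KLC.isRed, KLC.arch) -/
  red : IsRed K v ρ
  red' : IsRed K v' ρ'
  comp : OldComp v' ρ' v ρ ι
  arch : Arch v
  /-- Atkin-Lehner -/
  ww : ∀ z, w (w z) = z
  wint : ∀ y : F', v' y ≤ 1 → v (w (ι y)) ≤ 1
  /-- the functions `x`, `x'` -/
  m0 : 0 < m
  xo : (ρ' x).order = -(m : ℤ)
  xo' : (ρ' x').order = -(m : ℤ) + 1
  wx : ∀ h : w (ι (x : F')) ∈ v.integer, ρ ⟨w (ι (x : F')), h⟩ = ρ' x ^ q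
  /-- `θ ≡ (1, 0)` -/
  θ1 : v (θ - 1) < 1
  θ2 : v (w θ) < 1
  /-- degree (places) -/
  fin : FiniteDimensional K⟮ι (x : F') * w (ι (x : F'))⟯ F
  rank : Module.finrank K⟮ι (x : F') * w (ι (x : F'))⟯ F ≤ (q + 1) * m + (q + 1) * m
  /-- integrality (places) -/
  int0 : ∀ y : F', IsInt K (x : F') y →
    IsInt K (ι (x : F') * w (ι (x : F'))) (ι y) ∧ IsInt K (ι (x : F') * w (ι (x : F'))) (w (ι y))
  intoo : ∀ y : F', IsInt K (x : F')⁻¹ y →
    IsInt K (ι (x : F') * w (ι (x : F')))⁻¹ (ι y) ∧ IsInt K (ι (x : F') * w (ι (x : F')))⁻¹ (w (ι y))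
  /-- LIFT at the old level (`lift1_of_count`) -/
  lift0 : Lift1 K v' ρ' x
  liftoo : ∀ u : v'.integer, (u : F') = (x : F')⁻¹ → Lift1 K v' ρ' u
  /-- a Frobenius lift -/
  semi : ∀ a, σ (algebraMap K F a) = algebraMap K F (σ₀ a)
  σx : σ (ι (x : F')) = ι (x : F')
  σw : ∀ z, σ (w z) = w (σ z)
  σv : ∀ z, v (σ z) = v z
  σold : ∀ y : F', ∃ y₁ : F', σ (ι y) = ι y₁
  kron : ∀ y : F', v' y ≤ 1 → v (w (σ (ι y)) - ι y ^ q) < 1
  q2 : 2 ≤ q

variable {K F F' k Γ₀ Γ₀' : Type*} [Field K] [Field F] [Algebra K F] [Field F']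
    [Algebra K F'] [Field k] [LinearOrderedCommGroupWithZero Γ₀]
    [LinearOrderedCommGroupWithZero Γ₀']
    {v : Valuation F Γ₀} {ρ : v.integer →+* LaurentSeries k}
    {v' : Valuation F' Γ₀'} {ρ' : v'.integer →+* LaurentSeries k} {ι : F' →ₐ[K] F}
    {w : F ≃ₐ[K] F} {x x' : v'.integer} {m q : ℕ} {θ : F} {σ : F ≃+* F} {σ₀ : K ≃+* K}

/-- the parameter `t = x * w x`. -/
def tPar (ι : F' →ₐ[K] F) (w : F ≃ₐ[K] F) (x : F') : F := ι x * w (ι x)

/-- the family `x^a x'^i`. -/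
def yFam (ι : F' →ₐ[K] F) (x x' : F') (m q : ℕ) : Fin ((q + 1) * m) → F :=
  fun j => ι (x ^ ((j : ℕ) / m) * x' ^ ((j : ℕ) % m))

namespace OldData

variable (D : OldData K v ρ v' ρ' ι w x x' m q θ σ σ₀)

include D

theorem X_mem : ι (x : F') ∈ v.integer := (D.comp.le _).1 x.2

theorem X'_mem : ι (x' : F') ∈ v.integer := (D.comp.le _).1 x'.2

theorem WX_mem : w (ι (x : F')) ∈ v.integer := D.wint _ x.2

theorem t_mem : tPar ι w (x : F') ∈ v.integer := mul_mem D.X_mem D.WX_mem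

theorem rho_t : ρ ⟨tPar ι w (x : F'), D.t_mem⟩ = ρ' x ^ (q + 1) := by
  have h : (⟨tPar ι w (x : F'), D.t_mem⟩ : v.integer) =
      ⟨ι (x : F'), D.X_mem⟩ * ⟨w (ι (x : F')), D.WX_mem⟩ := rfl
  rw [h, map_mul, D.comp.rho, D.wx, pow_succ']

theorem order_rho_t :
    (ρ ⟨tPar ι w (x : F'), D.t_mem⟩).order = -(((q + 1) * m : ℕ) : ℤ) := by
  rw [D.rho_t, HahnSeries.order_pow, D.xo]
  push_cast
  simp only [nsmul_eq_mul]
  push_cast
  ring

theorem w_t : w (tPar ι w (x : F')) = tPar ι w (x : F') := by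
  rw [tPar, map_mul, D.ww, mul_comm]

theorem base : Base K v ρ w (tPar ι w (x : F')) θ where
  red := D.red
  ww := D.ww
  wt := D.w_t
  t1 := D.t_mem
  tord := by
    rw [D.order_rho_t]
    have := D.m0
    have h : 0 < (q + 1) * m := by positivity
    omega
  θ1 := D.θ1
  θ2 := D.θ2

/-- the family `x^a x'^i` at the old level. -/
def yOld (x x' : v'.integer) (m q : ℕ) : Fin ((q + 1) * m) → v'.integer :=
  fun j => x ^ ((j : ℕ) / m) * x' ^ ((j : ℕ) % m)

omit D in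
theorem yFam_eq : yFam ι (x : F') (x' : F') m q = fun j => ι (yOld x x' m q j : F') := rfl

theorem on : ON K v (tPar ι w (x : F')) (yFam ι (x : F') (x' : F') m q) := by
  have h := on_xx D.red ⟨tPar ι w (x : F'), D.t_mem⟩ ⟨ι (x : F'), D.X_mem⟩ ⟨ι (x' : F'), D.X'_mem⟩
    (q := q) D.m0 (by rw [D.comp.rho]; exact D.xo) (by rw [D.comp.rho]; exact D.xo') D.order_rho_t
  have e : yFam ι (x : F') (x' : F') m q =
      fun j : Fin ((q + 1) * m) => ι (x : F') ^ ((j : ℕ) / m) * ι (x' : F') ^ ((j : ℕ) % m) := by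
    funext j
    rw [yFam, map_mul, map_pow, map_pow]
  rw [e]
  exact h

theorem y2 (j : Fin ((q + 1) * m)) : v (w (yFam ι (x : F') (x' : F') m q j)) ≤ 1 :=
  D.wint _ (yOld x x' m q j).2

theorem resF : ∀ z : v.integer, ∃ z' : v'.integer, ρ z = ρ' z' :=
  resField D.base D.arch D.red' D.comp (yOld x x' m q) D.y2 (D.base.on2 _ D.on D.y2)
    (D.base.spans _ D.on D.y2 D.fin D.rank) (x ^ (q + 1)) (by rw [map_pow, D.rho_t])

theorem v'_x : v' (x : F') = 1 := by
  refine le_antisymm x.2 (not_lt.1 fun h => ?_)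
  have h0 := (D.red'.ker x).2 h
  have h1 := D.xo
  rw [h0, HahnSeries.order_zero] at h1
  have := D.m0
  omega

theorem t_ne_zero : tPar ι w (x : F') ≠ 0 := by
  intro h
  have h0 : (⟨tPar ι w (x : F'), D.t_mem⟩ : v.integer) = 0 := Subtype.ext h
  have h1 := D.base.tord
  rw [h0, map_zero, HahnSeries.order_zero] at h1
  exact lt_irrefl _ h1

end OldData

/-- **T1A-OLD.**  `OldData → Full`. -/
theorem full_of_old (D : OldData K v ρ v' ρ' ι w x x' m q θ σ σ₀) :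
    Full K v ρ w (tPar ι w (x : F')) θ (YOld v' ι) σ σ₀ q (yFam ι (x : F') (x' : F') m q) where
  base := D.base
  arch := D.arch
  on := D.on
  y2 := D.y2
  fin := D.fin
  rank := D.rank
  yint := by
    rintro y ⟨y', hy', rfl⟩
    exact ⟨(D.comp.le _).1 hy', D.wint _ hy'⟩
  lift0 := by
    intro u hu
    have hu' : u = ⟨tPar ι w (x : F'), D.t_mem⟩ := Subtype.ext hu
    refine lift_of_old D.red D.comp u x (fun φ hφ => ?_) D.lift0 (fun y' hy' => ?_) D.resF
    · rw [hu', D.rho_t] at hφ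
      exact isInt_of_pow_param (q + 1) hφ
    · rw [hu]
      exact D.int0 y' hy'
  liftoo := by
    intro u hu
    have h1 : u * ⟨tPar ι w (x : F'), D.t_mem⟩ = 1 :=
      Subtype.ext (by
        show (u : F) * tPar ι w (x : F') = 1
        rw [hu, inv_mul_cancel₀ D.t_ne_zero])
    have h2 : ρ u = (ρ' (invInt x D.v'_x)) ^ (q + 1) := by
      have h3 := congrArg ρ h1
      rw [map_mul, map_one, D.rho_t] at h3
      rw [rho_invInt, inv_pow]
      exact eq_inv_of_mul_eq_one_left h3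
    refine lift_of_old D.red D.comp u (invInt x D.v'_x) (fun φ hφ => ?_) (D.liftoo _ rfl)
      (fun y' hy' => ?_) D.resF
    · rw [h2] at hφ
      exact isInt_of_pow_param (q + 1) hφ
    · rw [hu]
      exact D.intoo y' hy'
  semi :=
    { semi := D.semi
      fix := by rw [tPar, map_mul, D.σw, D.σx]
      comm := D.σw
      val := D.σv }
  frob :=
    { stab := by
        rintro y ⟨y', hy', rfl⟩
        obtain ⟨y₁, hy₁⟩ := D.σold y'
        refine ⟨y₁, (D.comp.le _).2 ?_, hy₁.symm⟩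
        rw [← hy₁, D.σv]
        exact (D.comp.le _).1 hy'
      kron := by
        rintro y ⟨y', hy', rfl⟩
        exact D.kron y' hy' }
  q2 := D.q2

end Fermat.Agent.TOR.T1A
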